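import Mathlib

/-!
# Thaine's relation in the class group of `ℚ(ζ_p)` (package T of S14)

`K` is a `p`-th cyclotomic field, `M = K(ζ_q)` for a prime `q ≠ p` (used with `q ≡ 1 mod p`).
Starting from the unit `δ = ζ_p - ζ_q` of relative norm `1`, Hilbert 90 gives `β` with
`δ · τ β = β`; its norm `γ ∈ 𝓞 K` has valuation divisible by `q - 1` away from `q`, and at every
prime `𝔮 ∣ q` the valuation `s` satisfies `(ζ_p - 1) · g ^ s ≡ 1 mod 𝔮`.
-/

set_option autoImplicit false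
set_option linter.unusedSectionVars false
set_option linter.style.haveILetI false

namespace Fermat.Agent.S14.H10

open NumberField Polynomial

variable {p q : ℕ} [hp : Fact p.Prime] [hq : Fact q.Prime]
variable {K : Type} [Field K] [NumberField K] [hK : IsCyclotomicExtension {p} ℚ K]
variable {M : Type} [Field M] [NumberField M] [Algebra K M] [hM : IsCyclotomicExtension {q} K M]

include hK hM in
/-- `M = K(ζ_q) = ℚ(ζ_p, ζ_q)` is the `pq`-th cyclotomic field. -/
theorem isCyclotomicExtension_mul (hpq : p ≠ q) : IsCyclotomicExtension {p * q} ℚ M := by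
  have h1 : IsCyclotomicExtension ({p} ∪ {q}) ℚ M :=
    IsCyclotomicExtension.trans {p} {q} ℚ K M (algebraMap K M).injective
  have hcop : Nat.Coprime p q := (Nat.coprime_primes hp.out hq.out).mpr hpq
  obtain ⟨a, ha⟩ := h1.exists_isPrimitiveRoot (n := p) (by simp) hp.out.ne_zero
  obtain ⟨b, hb⟩ := h1.exists_isPrimitiveRoot (n := q) (by simp) hq.out.ne_zero
  have hab : IsPrimitiveRoot (a * b) (p * q) := by
    have := (Commute.all a b).orderOf_mul_eq_mul_orderOf_of_coprime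
      (by rw [← ha.eq_orderOf, ← hb.eq_orderOf]; exact hcop)
    rw [← ha.eq_orderOf, ← hb.eq_orderOf] at this
    rw [← this]
    exact IsPrimitiveRoot.orderOf (a * b)
  have h2 : IsCyclotomicExtension (({p} ∪ {q}) ∪ {p * q}) ℚ M :=
    IsCyclotomicExtension.union_of_isPrimitiveRoot _ _ _ hab
  have h3 : (({p} ∪ {q}) ∪ {p * q} : Set ℕ) = (({p * q} ∪ {p}) ∪ {q} : Set ℕ) := by
    ext x; simp only [Set.mem_union, Set.mem_singleton_iff]; tauto
  rw [h3] at h2
  have hpq0 : p * q ≠ 0 := Nat.mul_ne_zero hp.out.ne_zero hq.out.ne_zero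
  have h4 : IsCyclotomicExtension ({p * q} ∪ {p}) ℚ M :=
    (IsCyclotomicExtension.iff_union_of_dvd ℚ M
      ⟨p * q, by simp, hpq0, Dvd.intro_left p rfl⟩).mpr h2
  exact (IsCyclotomicExtension.iff_union_of_dvd ℚ M
      ⟨p * q, by simp, hpq0, Dvd.intro q rfl⟩).mpr h4

include hK hM in
theorem finrank_eq (hpq : p ≠ q) : Module.finrank K M = q - 1 := by
  have := isCyclotomicExtension_mul (K := K) (M := M) hpq
  have : NeZero (p * q) := ⟨Nat.mul_ne_zero hp.out.ne_zero hq.out.ne_zero⟩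
  have hcop : Nat.Coprime p q := (Nat.coprime_primes hp.out hq.out).mpr hpq
  have h1 : Module.finrank ℚ M = (p * q).totient :=
    IsCyclotomicExtension.finrank M (cyclotomic.irreducible_rat (NeZero.pos _))
  have h2 : Module.finrank ℚ K = p.totient :=
    IsCyclotomicExtension.finrank K (cyclotomic.irreducible_rat hp.out.pos)
  have h3 := Module.finrank_mul_finrank ℚ K M
  rw [h1, h2, Nat.totient_mul hcop, Nat.totient_prime hq.out] at h3
  have hp1 : 0 < p.totient := Nat.totient_pos.mpr hp.out.pos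
  exact Nat.eq_of_mul_eq_mul_left hp1 h3

include hK hM in
theorem irreducible_cyclotomic (hpq : p ≠ q) : Irreducible (cyclotomic q K) := by
  have hζ := IsCyclotomicExtension.zeta_spec q K M
  have hint : IsIntegral K (IsCyclotomicExtension.zeta q K M) :=
    (hζ.isIntegral hq.out.pos).tower_top
  have hdvd : minpoly K (IsCyclotomicExtension.zeta q K M) ∣ cyclotomic q K := by
    apply minpoly.dvd
    rw [aeval_def, eval₂_eq_eval_map, map_cyclotomic]
    exact hζ.isRoot_cyclotomic hq.out.pos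
  have hdeg : (minpoly K (IsCyclotomicExtension.zeta q K M)).natDegree = q - 1 := by
    rw [← finrank_eq (K := K) (M := M) hpq, ← hζ.powerBasis_dim K, PowerBasis.finrank]
  have heq : minpoly K (IsCyclotomicExtension.zeta q K M) = cyclotomic q K := by
    refine (Polynomial.eq_of_monic_of_dvd_of_natDegree_le (minpoly.monic hint)
      (cyclotomic.monic q K) hdvd ?_).symm
    rw [hdeg, natDegree_cyclotomic, Nat.totient_prime hq.out]
  rw [← heq]
  exact minpoly.irreducible hint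

include hK in
/-- The relative norm of `a - ζ_q` is `Φ_q(a)`. -/
theorem norm_sub_zeta (hpq : p ≠ q) (hq2 : q ≠ 2) {ζq : M} (hζq : IsPrimitiveRoot ζq q) (a : K) :
    Algebra.norm K (algebraMap K M a - ζq) = (cyclotomic q K).eval a := by
  have hirr := irreducible_cyclotomic (K := K) (M := M) hpq
  have hint : IsIntegral K (ζq - algebraMap K M a) :=
    ((hζq.isIntegral hq.out.pos).tower_top).sub isIntegral_algebraMap
  have htop : Algebra.adjoin K {ζq - algebraMap K M a} = ⊤ := by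
    rw [eq_top_iff, ← IsCyclotomicExtension.adjoin_primitive_root_eq_top hζq]
    refine Algebra.adjoin_le ?_
    intro x hx
    rw [Set.mem_singleton_iff.mp hx]
    have h1 : ζq - algebraMap K M a ∈ Algebra.adjoin K {ζq - algebraMap K M a} :=
      Algebra.subset_adjoin (Set.mem_singleton _)
    have h2 := Subalgebra.add_mem _ h1 (Subalgebra.algebraMap_mem _ a)
    simpa using h2
  let pb := PowerBasis.ofAdjoinEqTop hint htop
  have hgen : pb.gen = ζq - algebraMap K M a := PowerBasis.ofAdjoinEqTop_gen hint htop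
  have hmin : minpoly K (ζq - algebraMap K M a) = (cyclotomic q K).comp (X + C a) := by
    rw [minpoly.sub_algebraMap, ← hζq.minpoly_eq_cyclotomic_of_irreducible hirr]
  have hdim : pb.dim = q - 1 := by
    rw [← PowerBasis.natDegree_minpoly, hgen, hmin, natDegree_comp, natDegree_X_add_C, mul_one,
      natDegree_cyclotomic, Nat.totient_prime hq.out]
  have hodd : Even (q - 1) := hq.out.even_sub_one hq2
  have h1 : Algebra.norm K (ζq - algebraMap K M a) = (cyclotomic q K).eval a := by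
    rw [← hgen, Algebra.PowerBasis.norm_gen_eq_coeff_zero_minpoly, hgen, hmin, hdim,
      hodd.neg_one_pow, one_mul, coeff_zero_eq_eval_zero, eval_comp]
    simp
  have h2 : algebraMap K M a - ζq = (-1) * (ζq - algebraMap K M a) := by ring
  rw [h2, map_mul, h1]
  have h3 : Algebra.norm K (-1 : M) = 1 := by
    have : (-1 : M) = algebraMap K M (-1) := by simp
    rw [this, Algebra.norm_algebraMap, finrank_eq (K := K) (M := M) hpq, hodd.neg_one_pow]
  rw [h3, one_mul]

include hK hM in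
theorem exists_generator (hpq : p ≠ q) {ζq : M} (hζq : IsPrimitiveRoot ζq q) :
    ∃ (τ : Gal(M/K)) (g : ℕ), (∀ σ : Gal(M/K), σ ∈ Subgroup.zpowers τ) ∧ τ ζq = ζq ^ g ∧
      ¬ q ∣ g := by
  have hirr := irreducible_cyclotomic (K := K) (M := M) (p := p) (q := q) hpq
  let e := IsCyclotomicExtension.autEquivPow M hirr
  have hcyc : IsCyclic Gal(M/K) := isCyclic_of_surjective e.symm e.symm.surjective
  obtain ⟨τ, hτ⟩ := hcyc.exists_generator
  refine ⟨τ, ((e τ : (ZMod q)ˣ) : ZMod q).val, hτ, ?_, ?_⟩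
  · have hz := IsCyclotomicExtension.zeta_spec q K M
    obtain ⟨k, -, rfl⟩ := hz.eq_pow_of_pow_eq_one hζq.pow_eq_one
    have h1 := IsPrimitiveRoot.autToPow_spec K hz τ
    rw [map_pow, ← pow_mul, mul_comm, pow_mul]
    congr 1
    rw [← h1]
    rfl
  · intro hdvd
    have h0 : ((e τ : (ZMod q)ˣ) : ZMod q) = 0 := by
      rw [← ZMod.natCast_zmod_val ((e τ : (ZMod q)ˣ) : ZMod q)]
      exact (ZMod.natCast_eq_zero_iff _ _).mpr hdvd
    exact (e τ).ne_zero h0

/-- `Φ_q(ζ_p) = 1` when `q ≡ 1 mod p`. -/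
theorem eval_cyclotomic_zeta (hqp : q % p = 1) {ζ : K} (hζ : IsPrimitiveRoot ζ p) :
    (cyclotomic q K).eval ζ = 1 := by
  have h1 : (cyclotomic q K).eval ζ * (ζ - 1) = ζ ^ q - 1 := by
    have := congrArg (Polynomial.eval ζ) (cyclotomic_prime_mul_X_sub_one K q)
    simpa using this
  have h2 : ζ ^ q = ζ := by
    conv_lhs => rw [← Nat.div_add_mod q p, pow_add, pow_mul, hζ.pow_eq_one, one_pow, one_mul, hqp,
      pow_one]
  have h3 : ζ - 1 ≠ 0 := sub_ne_zero.mpr (hζ.ne_one hp.out.one_lt)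
  rw [h2] at h1
  exact mul_right_cancel₀ h3 (by rw [h1, one_mul])

/-- The element `δ = ζ_p - ζ_q` of `𝓞 M`. -/
noncomputable def delta {ζ : K} (hζ : IsPrimitiveRoot ζ p) {ζq : M} (hζq : IsPrimitiveRoot ζq q) :
    𝓞 M :=
  algebraMap (𝓞 K) (𝓞 M) hζ.toInteger - hζq.toInteger

theorem coe_delta {ζ : K} (hζ : IsPrimitiveRoot ζ p) {ζq : M} (hζq : IsPrimitiveRoot ζq q) :
    (delta hζ hζq : M) = algebraMap K M ζ - ζq := by
  simp [delta]
  rfl

include hK in
theorem norm_delta (hpq : p ≠ q) (hq2 : q ≠ 2) (hqp : q % p = 1) {ζ : K}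
    (hζ : IsPrimitiveRoot ζ p) {ζq : M} (hζq : IsPrimitiveRoot ζq q) :
    Algebra.norm K (algebraMap (𝓞 M) M (delta hζ hζq)) = 1 := by
  rw [← RingOfIntegers.coe_eq_algebraMap, coe_delta,
    norm_sub_zeta (p := p) hpq hq2 hζq, eval_cyclotomic_zeta hqp hζ]

include hK in
theorem isUnit_delta (hpq : p ≠ q) (hq2 : q ≠ 2) (hqp : q % p = 1) {ζ : K}
    (hζ : IsPrimitiveRoot ζ p) {ζq : M} (hζq : IsPrimitiveRoot ζq q) :
    IsUnit (delta hζ hζq) := by
  haveI : IsGalois K M := IsCyclotomicExtension.isGalois {q} K M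
  rw [← RingOfIntegers.isUnit_norm_of_isGalois K]
  have : RingOfIntegers.norm K (delta hζ hζq) = 1 := by
    apply RingOfIntegers.ext
    rw [RingOfIntegers.coe_norm]
    have := norm_delta (p := p) hpq hq2 hqp hζ hζq
    rw [← RingOfIntegers.coe_eq_algebraMap] at this
    rw [this]; rfl
  rw [this]
  exact isUnit_one

/-- The restriction of a Galois automorphism to the ring of integers. -/
noncomputable abbrev res (τ : Gal(M/K)) : 𝓞 M ≃ₐ[𝓞 K] 𝓞 M := galRestrict (𝓞 K) K M (𝓞 M) τ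

theorem res_pow (τ : Gal(M/K)) (j : ℕ) : res (τ ^ j) = (res τ) ^ j := map_pow _ _ _

theorem coe_res (τ : Gal(M/K)) (x : 𝓞 M) : ((res τ x : 𝓞 M) : M) = τ (x : M) :=
  algebraMap_galRestrict_apply (𝓞 K) τ x

include hK hM in
/-- Product over a cyclic Galois group. -/
theorem prod_res_eq_norm (hpq : p ≠ q) (τ : Gal(M/K)) (hτ : ∀ σ : Gal(M/K), σ ∈ Subgroup.zpowers τ)
    (β : 𝓞 M) :
    ∏ j ∈ Finset.range (q - 1), (res τ ^ j) β = algebraMap (𝓞 K) (𝓞 M) (RingOfIntegers.norm K β) := by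
  classical
  haveI : IsGalois K M := IsCyclotomicExtension.isGalois {q} K M
  apply RingOfIntegers.ext
  rw [RingOfIntegers.coe_algebraMap_norm, Algebra.norm_eq_prod_automorphisms]
  have hcard : Nat.card Gal(M/K) = q - 1 := by
    rw [IsGalois.card_aut_eq_finrank, finrank_eq (p := p) (K := K) (M := M) hpq]
  have himg := IsCyclic.image_range_card hτ
  rw [hcard] at himg
  rw [← himg, Finset.prod_image]
  · rw [RingOfIntegers.coe_eq_algebraMap, map_prod]
    refine Finset.prod_congr rfl fun j _ => ?_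
    rw [← res_pow, ← RingOfIntegers.coe_eq_algebraMap, coe_res]
  · intro i hi j hj hij
    have hord : orderOf τ = q - 1 := by
      rw [← hcard]; exact orderOf_eq_card_of_forall_mem_zpowers hτ
    have := pow_injOn_Iio_orderOf (x := τ)
    rw [hord] at this
    exact this (by simpa using hi) (by simpa using hj) hij

include hK hM in
theorem exists_beta (hpq : p ≠ q) (hq2 : q ≠ 2) (hqp : q % p = 1) {ζ : K}
    (hζ : IsPrimitiveRoot ζ p) {ζq : M} (hζq : IsPrimitiveRoot ζq q)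
    (τ : Gal(M/K)) (hτ : ∀ σ : Gal(M/K), σ ∈ Subgroup.zpowers τ) :
    ∃ (β : 𝓞 M) (D : (𝓞 M)ˣ), β ≠ 0 ∧ delta hζ hζq * res τ β = β ∧
      β ^ (q - 1) = D * algebraMap (𝓞 K) (𝓞 M) (RingOfIntegers.norm K β) := by
  haveI : IsGalois K M := IsCyclotomicExtension.isGalois {q} K M
  haveI : IsCyclic Gal(M/K) := ⟨τ, hτ⟩
  obtain ⟨β, hβ0, hβ⟩ := groupCohomology.exists_mul_galRestrict_of_norm_eq_one
    (A := 𝓞 K) (B := 𝓞 M) hτ (norm_delta (p := p) hpq hq2 hqp hζ hζq)
  set δ := delta hζ hζq with hδ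
  have hδu : IsUnit δ := isUnit_delta hpq hq2 hqp hζ hζq
  -- `β = D_j * τ^j β`
  have key : ∀ j : ℕ, β = (∏ i ∈ Finset.range j, (res τ ^ i) δ) * (res τ ^ j) β := by
    intro j
    induction j with
    | zero => simp
    | succ j ih =>
      rw [Finset.prod_range_succ, pow_succ', AlgEquiv.mul_apply]
      conv_lhs => rw [ih]
      conv_lhs => rw [← hβ]
      rw [map_mul]
      have : (res τ ^ j) (res τ β) = res τ ((res τ ^ j) β) := by
        rw [← AlgEquiv.mul_apply, ← AlgEquiv.mul_apply, ← pow_succ, ← pow_succ']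
      rw [this]
      ring
  have hDu : ∀ j : ℕ, IsUnit (∏ i ∈ Finset.range j, (res τ ^ i) δ) := by
    intro j
    have : ∀ i ∈ Finset.range j, IsUnit ((res τ ^ i) δ) := fun i _ => hδu.map _
    exact (Finset.prod_induction _ IsUnit (fun a b ha hb => ha.mul hb) isUnit_one this)
  have hD : IsUnit (∏ j ∈ Finset.range (q - 1), ∏ i ∈ Finset.range j, (res τ ^ i) δ) :=
    Finset.prod_induction _ IsUnit (fun a b ha hb => ha.mul hb) isUnit_one (fun j _ => hDu j)
  refine ⟨β, hD.unit, hβ0, hβ, ?_⟩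
  rw [IsUnit.unit_spec, ← prod_res_eq_norm (p := p) hpq τ hτ β, ← Finset.prod_mul_distrib]
  calc β ^ (q - 1) = ∏ _j ∈ Finset.range (q - 1), β := by simp
    _ = _ := Finset.prod_congr rfl (fun j _ => key j)

include hK hM in
/-- The relative ramification index of a nonzero prime `P` of `𝓞 M` over `𝓞 K`: it is `q - 1` if
`P` lies over `q` and `1` otherwise. -/
theorem ramificationIdx'_eq (hpq : p ≠ q) (P : Ideal (𝓞 M)) [hPp : P.IsPrime] (hP : P ≠ ⊥) :
    ((q : 𝓞 M) ∈ P → (P.under (𝓞 K)).ramificationIdx' P = q - 1) ∧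
      ((q : 𝓞 M) ∉ P → (P.under (𝓞 K)).ramificationIdx' P = 1) := by
  haveI := isCyclotomicExtension_mul (p := p) (q := q) (K := K) (M := M) hpq
  haveI : NeZero P := ⟨hP⟩
  set ℓ := Ideal.absNorm (Ideal.under ℤ P) with hℓ
  have hℓp : ℓ.Prime := Nat.absNorm_under_prime P
  haveI : Fact ℓ.Prime := ⟨hℓp⟩
  haveI hPℓ : P.LiesOver (Ideal.span {(ℓ : ℤ)}) := Int.liesOver_span_absNorm P
  set v := P.under (𝓞 K) with hv
  haveI : P.LiesOver v := Ideal.over_under P
  haveI hvℓ : v.LiesOver (Ideal.span {(ℓ : ℤ)}) := Ideal.LiesOver.tower_bot P v _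
  have hv0 : v ≠ ⊥ := by
    intro h
    have h1 : (ℓ : 𝓞 M) ∈ P := by
      have := Int.absNorm_under_mem P
      simpa using this
    have h2 : (ℓ : 𝓞 K) ∈ v := by
      rw [hv, Ideal.under_def, Ideal.mem_comap, map_natCast]
      exact h1
    rw [h] at h2
    exact hℓp.ne_zero (by exact_mod_cast (Ideal.mem_bot.mp h2))
  have htower := Ideal.ramificationIdx_tower (R := ℤ) v P
  rw [Ideal.ramificationIdx'_eq_ramificationIdx v P hv0]
  have hmem : (q : 𝓞 M) ∈ P ↔ ℓ = q := by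
    have := Int.cast_mem_ideal_iff (I := P) (d := (q : ℤ))
    rw [Int.cast_natCast] at this
    rw [this, Int.natCast_dvd_natCast, Nat.prime_dvd_prime_iff_eq hℓp hq.out]
  by_cases hℓq : ℓ = q
  · refine ⟨fun _ => ?_, fun h => absurd (hmem.mpr hℓq) h⟩
    haveI : P.LiesOver (Ideal.span {(q : ℤ)}) := hℓq ▸ hPℓ
    haveI : v.LiesOver (Ideal.span {(q : ℤ)}) := hℓq ▸ hvℓ
    have hqp : ¬ q ∣ p := fun h => hpq ((Nat.prime_dvd_prime_iff_eq hq.out hp.out).mp h).symm
    have h1 : P.ramificationIdx ℤ = q ^ 0 * (q - 1) :=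
      IsCyclotomicExtension.Rat.ramificationIdx_eq (p * q) M P (by ring) hqp
    have h2 : v.ramificationIdx ℤ = 1 :=
      IsCyclotomicExtension.Rat.ramificationIdx_eq_of_not_dvd q K v hqp
    rw [h1, h2] at htower
    simpa using htower.symm
  · refine ⟨fun h => absurd (hmem.mp h) hℓq, fun _ => ?_⟩
    by_cases hℓp' : ℓ = p
    · haveI : P.LiesOver (Ideal.span {(p : ℤ)}) := hℓp' ▸ hPℓ
      haveI : v.LiesOver (Ideal.span {(p : ℤ)}) := hℓp' ▸ hvℓ
      have hpq' : ¬ p ∣ q := fun h => hpq ((Nat.prime_dvd_prime_iff_eq hp.out hq.out).mp h)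
      have h1 : P.ramificationIdx ℤ = p ^ 0 * (p - 1) :=
        IsCyclotomicExtension.Rat.ramificationIdx_eq (p * q) M P (by ring) hpq'
      have h2 : v.ramificationIdx ℤ = p - 1 :=
        IsCyclotomicExtension.Rat.ramificationIdx_eq_of_prime p K v
      rw [h1, h2] at htower
      have hp1 : 0 < p - 1 := Nat.sub_pos_of_lt hp.out.one_lt
      have : (p - 1) * 1 = (p - 1) * P.ramificationIdx (𝓞 K) := by simpa using htower
      exact (Nat.eq_of_mul_eq_mul_left hp1 this).symm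
    · have hndvd : ¬ ℓ ∣ p * q := by
        intro h
        rcases (Nat.Prime.dvd_mul hℓp).mp h with h | h
        · exact hℓp' ((Nat.prime_dvd_prime_iff_eq hℓp hp.out).mp h)
        · exact hℓq ((Nat.prime_dvd_prime_iff_eq hℓp hq.out).mp h)
      haveI : NeZero (p * q) := ⟨Nat.mul_ne_zero hp.out.ne_zero hq.out.ne_zero⟩
      have h1 : P.ramificationIdx ℤ = 1 :=
        IsCyclotomicExtension.Rat.ramificationIdx_eq_of_not_dvd ℓ M P hndvd
      rw [h1] at htower
      exact Nat.eq_one_of_mul_eq_one_left htower.symm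

theorem under_ne_bot' (P : Ideal (𝓞 M)) [hPp : P.IsPrime] (hP : P ≠ ⊥) : P.under (𝓞 K) ≠ ⊥ := by
  haveI : NeZero P := ⟨hP⟩
  have hℓp : (Ideal.absNorm (Ideal.under ℤ P)).Prime := Nat.absNorm_under_prime P
  intro h
  have h1 : ((Ideal.absNorm (Ideal.under ℤ P) : ℕ) : 𝓞 M) ∈ P := Int.absNorm_under_mem P
  have h2 : ((Ideal.absNorm (Ideal.under ℤ P) : ℕ) : 𝓞 K) ∈ P.under (𝓞 K) := by
    rw [Ideal.under_def, Ideal.mem_comap, map_natCast]
    exact h1
  rw [h] at h2
  exact hℓp.ne_zero (by exact_mod_cast (Ideal.mem_bot.mp h2))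

include hK hM in
/-- Valuations of `γ` in terms of valuations of `β` when `β ^ (q - 1) = unit * γ`. -/
theorem multiplicity_gamma (hpq : p ≠ q) {β : 𝓞 M} {γ : 𝓞 K} {D : (𝓞 M)ˣ} (hβ : β ≠ 0)
    (hrel : β ^ (q - 1) = D * algebraMap (𝓞 K) (𝓞 M) γ) (P : Ideal (𝓞 M)) [hPp : P.IsPrime]
    (hP : P ≠ ⊥) :
    ((q : 𝓞 M) ∈ P → multiplicity (P.under (𝓞 K)) (Ideal.span {γ}) =
        multiplicity P (Ideal.span {β})) ∧
      ((q : 𝓞 M) ∉ P → multiplicity (P.under (𝓞 K)) (Ideal.span {γ}) =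
        (q - 1) * multiplicity P (Ideal.span {β})) := by
  set v := P.under (𝓞 K) with hv
  haveI : P.LiesOver v := Ideal.over_under P
  have hv0 : v ≠ ⊥ := under_ne_bot' P hP
  have hvprime : Prime v := Ideal.prime_of_isPrime hv0 inferInstance
  have hPprime : Prime P := Ideal.prime_of_isPrime hP inferInstance
  have hγ0 : γ ≠ 0 := by
    rintro rfl
    rw [map_zero, mul_zero] at hrel
    exact hβ (pow_eq_zero_iff (Nat.sub_pos_of_lt hq.out.one_lt).ne' |>.mp hrel)
  have hγI : Ideal.span {γ} ≠ ⊥ := by simpa using hγ0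
  have hβI : Ideal.span {β} ≠ ⊥ := by simpa using hβ
  have h1 := Ideal.IsDedekindDomain.emultiplicity_map_eq_ramificationIdx'_mul (S := 𝓞 M) hγI
    hvprime.irreducible hPprime.irreducible hP
  have h2 : Ideal.map (algebraMap (𝓞 K) (𝓞 M)) (Ideal.span {γ}) = Ideal.span {β} ^ (q - 1) := by
    rw [Ideal.map_span, Set.image_singleton, Ideal.span_singleton_pow, hrel]
    exact (Ideal.span_singleton_eq_span_singleton.mpr
      (associated_unit_mul_left _ _ D.isUnit)).symm
  rw [h2, emultiplicity_pow hPprime,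
    (FiniteMultiplicity.of_prime_left hPprime hβI).emultiplicity_eq_multiplicity,
    (FiniteMultiplicity.of_prime_left hvprime hγI).emultiplicity_eq_multiplicity] at h1
  have h3 : (q - 1) * multiplicity P (Ideal.span {β}) =
      v.ramificationIdx' P * multiplicity v (Ideal.span {γ}) := by exact_mod_cast h1
  obtain ⟨he1, he2⟩ := ramificationIdx'_eq (p := p) (K := K) hpq P hP
  refine ⟨fun h => ?_, fun h => ?_⟩
  · rw [he1 h] at h3
    exact (Nat.eq_of_mul_eq_mul_left (Nat.sub_pos_of_lt hq.out.one_lt) h3).symm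
  · rw [he2 h, one_mul] at h3
    exact h3.symm

/-- `(1 - ζ)^(q-1)` is associated to `q` for a primitive `q`-th root of unity `ζ`. -/
theorem associated_one_sub_pow {R : Type*} [CommRing R] [IsDomain R] {ζ : R}
    (hζ : IsPrimitiveRoot ζ q) : Associated ((1 - ζ) ^ (q - 1)) (q : R) := by
  have hq1 : q - 1 + 1 = q := Nat.sub_add_cancel hq.out.one_le
  have hprod : ∏ k ∈ Finset.range (q - 1), (1 - ζ ^ (k + 1)) = (q : R) := by
    have := IsPrimitiveRoot.prod_one_sub_pow_eq_order (n := q - 1) (μ := ζ) (by rwa [hq1])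
    rw [this]
    exact_mod_cast congrArg (Nat.cast (R := R)) hq1
  have hass : ∀ k ∈ Finset.range (q - 1), Associated (1 - ζ) (1 - ζ ^ (k + 1)) := by
    intro k hk
    have hk' : k + 1 < q := by have := Finset.mem_range.mp hk; omega
    have hcop : (k + 1).Coprime q :=
      ((Nat.Prime.coprime_iff_not_dvd hq.out).mpr
        (Nat.not_dvd_of_pos_of_lt (by omega) hk')).symm
    have := hζ.associated_sub_one_pow_sub_one_of_coprime hcop
    have h2 := this.neg_left.neg_right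
    simpa using h2
  rw [← hprod]
  have key : ∀ n : ℕ, n ≤ q - 1 →
      Associated ((1 - ζ) ^ n) (∏ k ∈ Finset.range n, (1 - ζ ^ (k + 1))) := by
    intro n
    induction n with
    | zero => intro _; simp
    | succ n ih =>
      intro hn
      rw [pow_succ, Finset.prod_range_succ]
      exact (ih (by omega)).mul_mul (hass n (Finset.mem_range.mpr (by omega)))
  exact key _ le_rfl

include hK hM in
/-- `1 - ζ_q` is a uniformizer at every prime of `𝓞 M` above `q`. -/
theorem multiplicity_one_sub_zeta (hpq : p ≠ q) {ζq : 𝓞 M} (hζq : IsPrimitiveRoot ζq q)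
    (P : Ideal (𝓞 M)) [hPp : P.IsPrime] (hP : P ≠ ⊥) (hqP : (q : 𝓞 M) ∈ P) :
    multiplicity P (Ideal.span {1 - ζq}) = 1 := by
  haveI := isCyclotomicExtension_mul (p := p) (q := q) (K := K) (M := M) hpq
  haveI : NeZero P := ⟨hP⟩
  have hℓp : (Ideal.absNorm (Ideal.under ℤ P)).Prime := Nat.absNorm_under_prime P
  have hℓq : Ideal.absNorm (Ideal.under ℤ P) = q := by
    have := Int.cast_mem_ideal_iff (I := P) (d := (q : ℤ))
    rw [Int.cast_natCast] at this
    rw [this, Int.natCast_dvd_natCast, Nat.prime_dvd_prime_iff_eq hℓp hq.out] at hqP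
    exact hqP
  haveI hPq : P.LiesOver (Ideal.span {(q : ℤ)}) := hℓq ▸ Int.liesOver_span_absNorm P
  have hPprime : Prime P := Ideal.prime_of_isPrime hP inferInstance
  have hq0 : (Ideal.span {(q : ℤ)}) ≠ ⊥ := by
    simpa using hq.out.ne_zero
  have hqprime : Prime (Ideal.span {(q : ℤ)}) := Ideal.prime_of_isPrime hq0 inferInstance
  have h1 := Ideal.IsDedekindDomain.emultiplicity_map_eq_ramificationIdx'_mul (S := 𝓞 M) hq0
    hqprime.irreducible hPprime.irreducible hP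
  have hqp : ¬ q ∣ p := fun h => hpq ((Nat.prime_dvd_prime_iff_eq hq.out hp.out).mp h).symm
  have he : (Ideal.span {(q : ℤ)}).ramificationIdx' P = q - 1 := by
    rw [Ideal.ramificationIdx'_eq_ramificationIdx _ P hq0,
      IsCyclotomicExtension.Rat.ramificationIdx_eq (p * q) M P (k := 0) (m := p) (by ring) hqp]
    simp
  have hPi0 : Ideal.span {1 - ζq} ≠ ⊥ := by
    have : (1 : 𝓞 M) - ζq ≠ 0 := sub_ne_zero.mpr (hζq.ne_one hq.out.one_lt).symm
    simpa using this
  have h2 : Ideal.map (algebraMap ℤ (𝓞 M)) (Ideal.span {(q : ℤ)}) =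
      Ideal.span {1 - ζq} ^ (q - 1) := by
    rw [Ideal.map_span, Set.image_singleton, Ideal.span_singleton_pow, map_natCast]
    exact (Ideal.span_singleton_eq_span_singleton.mpr (associated_one_sub_pow hζq)).symm
  rw [h2, emultiplicity_pow hPprime, he,
    (FiniteMultiplicity.of_prime_left hqprime hq0).emultiplicity_self,
    (FiniteMultiplicity.of_prime_left hPprime hPi0).emultiplicity_eq_multiplicity] at h1
  have h3 : (q - 1) * multiplicity P (Ideal.span {1 - ζq}) = (q - 1) * 1 := by exact_mod_cast h1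
  exact Nat.eq_of_mul_eq_mul_left (Nat.sub_pos_of_lt hq.out.one_lt) h3

/-- In a Dedekind domain, an element is a power of a uniformizer times a quotient of two elements
prime to `P`. -/
theorem exists_mul_eq_pow_mul {R : Type*} [CommRing R] [IsDedekindDomain R] (P : Ideal R)
    [hPp : P.IsPrime] (hP : P ≠ ⊥) {ϖ β : R} (hϖ : multiplicity P (Ideal.span {ϖ}) = 1)
    (hϖ0 : ϖ ≠ 0) (hβ : β ≠ 0) :
    ∃ a b : R, a ∉ P ∧ b ∉ P ∧ β * b = ϖ ^ (multiplicity P (Ideal.span {β})) * a := by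
  set s := multiplicity P (Ideal.span {β}) with hs
  have hPprime : Prime P := Ideal.prime_of_isPrime hP inferInstance
  have hβI : Ideal.span {β} ≠ ⊥ := by simpa using hβ
  have hϖI : Ideal.span {ϖ} ≠ ⊥ := by simpa using hϖ0
  have hfinβ := FiniteMultiplicity.of_prime_left hPprime hβI
  have hfinϖ := FiniteMultiplicity.of_prime_left hPprime hϖI
  obtain ⟨J, hJ⟩ : P ∣ Ideal.span {ϖ} := by
    have := pow_multiplicity_dvd P (Ideal.span {ϖ})
    rwa [hϖ, pow_one] at this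
  have hPJ : ¬ P ∣ J := by
    rintro ⟨J', rfl⟩
    have h2 : P ^ 2 ∣ Ideal.span {ϖ} := ⟨J', by rw [hJ]; ring⟩
    have := hfinϖ.le_multiplicity_of_pow_dvd h2
    omega
  obtain ⟨b₀, hb₀J, hb₀P⟩ : ∃ b₀ ∈ J, b₀ ∉ P := by
    rw [Ideal.dvd_iff_le] at hPJ
    exact SetLike.not_le_iff_exists.mp hPJ
  have hbP : b₀ ^ s ∉ P := fun h => hb₀P (hPp.mem_of_pow_mem s h)
  have hβPs : β ∈ P ^ s := by
    have h1 : P ^ s ∣ Ideal.span {β} := pow_multiplicity_dvd P (Ideal.span {β})
    rw [Ideal.dvd_iff_le] at h1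
    exact h1 (Ideal.mem_span_singleton_self β)
  have hmem : β * b₀ ^ s ∈ Ideal.span {ϖ ^ s} := by
    rw [← Ideal.span_singleton_pow, hJ, mul_pow]
    exact Ideal.mul_mem_mul hβPs (Ideal.pow_mem_pow hb₀J s)
  obtain ⟨a, ha⟩ := Ideal.mem_span_singleton'.mp hmem
  refine ⟨a, b₀ ^ s, ?_, hbP, by rw [← ha, mul_comm]⟩
  intro haP
  have h1 : Ideal.span {β} * Ideal.span {b₀ ^ s} = Ideal.span {ϖ} ^ s * Ideal.span {a} := by
    rw [Ideal.span_singleton_mul_span_singleton, Ideal.span_singleton_pow,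
      Ideal.span_singleton_mul_span_singleton, ← ha, mul_comm]
  have h2 : P ^ (s + 1) ∣ Ideal.span {β} * Ideal.span {b₀ ^ s} := by
    rw [h1, pow_succ]
    refine mul_dvd_mul (pow_dvd_pow_of_dvd ⟨J, hJ⟩ s) ?_
    rw [Ideal.dvd_iff_le, Ideal.span_singleton_le_iff_mem]
    exact haP
  have h3 := le_emultiplicity_of_pow_dvd h2
  have h4 : emultiplicity P (Ideal.span {b₀ ^ s}) = 0 := by
    rw [emultiplicity_eq_zero, Ideal.dvd_iff_le, Ideal.span_singleton_le_iff_mem]
    exact hbP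
  rw [emultiplicity_mul hPprime, h4, add_zero, hfinβ.emultiplicity_eq_multiplicity] at h3
  have : s + 1 ≤ s := by exact_mod_cast h3
  omega

theorem res_zeta {ζq : M} (hζq : IsPrimitiveRoot ζq q) {τ : Gal(M/K)} {g : ℕ}
    (hτg : τ ζq = ζq ^ g) : res τ hζq.toInteger = hζq.toInteger ^ g := by
  apply RingOfIntegers.ext
  rw [coe_res, RingOfIntegers.coe_eq_algebraMap (hζq.toInteger ^ g), map_pow,
    ← RingOfIntegers.coe_eq_algebraMap]
  exact hτg

include hK hM in
/-- `𝓞 M` is generated over `ℤ` by `ζ_p ζ_q`. -/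
theorem adjoin_eq_top (hpq : p ≠ q) {ζ : K} (hζ : IsPrimitiveRoot ζ p) {ζq : M}
    (hζq : IsPrimitiveRoot ζq q) :
    Algebra.adjoin ℤ {algebraMap (𝓞 K) (𝓞 M) hζ.toInteger * hζq.toInteger} = ⊤ := by
  haveI := isCyclotomicExtension_mul (p := p) (q := q) (K := K) (M := M) hpq
  haveI : NeZero (p * q) := ⟨Nat.mul_ne_zero hp.out.ne_zero hq.out.ne_zero⟩
  have hcop : Nat.Coprime p q := (Nat.coprime_primes hp.out hq.out).mpr hpq
  have hζ' : IsPrimitiveRoot (algebraMap K M ζ) p := hζ.map_of_injective (algebraMap K M).injective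
  have hξ : IsPrimitiveRoot (algebraMap K M ζ * ζq) (p * q) := by
    have := (Commute.all (algebraMap K M ζ) ζq).orderOf_mul_eq_mul_orderOf_of_coprime
      (by rw [← hζ'.eq_orderOf, ← hζq.eq_orderOf]; exact hcop)
    rw [← hζ'.eq_orderOf, ← hζq.eq_orderOf] at this
    rw [← this]
    exact IsPrimitiveRoot.orderOf _
  have h1 := hξ.integralPowerBasis.adjoin_gen_eq_top
  rw [hξ.integralPowerBasis_gen] at h1
  have h2 : hξ.toInteger = algebraMap (𝓞 K) (𝓞 M) hζ.toInteger * hζq.toInteger := by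
    apply RingOfIntegers.ext
    rw [RingOfIntegers.coe_eq_algebraMap (algebraMap (𝓞 K) (𝓞 M) hζ.toInteger * hζq.toInteger),
      map_mul, ← IsScalarTower.algebraMap_apply (𝓞 K) (𝓞 M) M,
      IsScalarTower.algebraMap_apply (𝓞 K) K M]
    rfl
  rwa [h2] at h1

include hK hM in
/-- `τ` acts trivially modulo `1 - ζ_q`. -/
theorem one_sub_zeta_dvd_res_sub (hpq : p ≠ q) {ζ : K} (hζ : IsPrimitiveRoot ζ p) {ζq : M}
    (hζq : IsPrimitiveRoot ζq q) {τ : Gal(M/K)} {g : ℕ} (hτg : τ ζq = ζq ^ g) (x : 𝓞 M) :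
    (1 - hζq.toInteger) ∣ res τ x - x := by
  have hx : x ∈ Algebra.adjoin ℤ {algebraMap (𝓞 K) (𝓞 M) hζ.toInteger * hζq.toInteger} := by
    rw [adjoin_eq_top (p := p) hpq hζ hζq]; trivial
  induction hx using Algebra.adjoin_induction with
  | mem x hx =>
    rw [Set.mem_singleton_iff.mp hx, map_mul, AlgEquiv.commutes, res_zeta hζq hτg, ← mul_sub]
    refine Dvd.dvd.mul_left ?_ _
    have h1 : (hζq.toInteger - 1) ∣ hζq.toInteger ^ g - 1 ^ g := sub_dvd_pow_sub_pow _ _ g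
    have h2 : hζq.toInteger ^ g - hζq.toInteger =
        (hζq.toInteger ^ g - 1 ^ g) - (hζq.toInteger - 1) := by ring
    rw [h2]
    have h3 : (1 - hζq.toInteger) ∣ hζq.toInteger - 1 := ⟨-1, by ring⟩
    exact dvd_sub (h3.trans h1) h3
  | algebraMap r =>
    rw [eq_intCast, map_intCast, sub_self]
    exact dvd_zero _
  | add x y _ _ hx hy =>
    have : res τ (x + y) - (x + y) = (res τ x - x) + (res τ y - y) := by rw [map_add]; ring
    rw [this]
    exact dvd_add hx hy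
  | mul x y _ _ hx hy =>
    have : res τ (x * y) - (x * y) = res τ x * (res τ y - y) + (res τ x - x) * y := by
      rw [map_mul]; ring
    rw [this]
    exact dvd_add (Dvd.dvd.mul_left hy _) (Dvd.dvd.mul_right hx _)

theorem res_one_sub_zeta {ζq : M} (hζq : IsPrimitiveRoot ζq q) {τ : Gal(M/K)} {g : ℕ}
    (hτg : τ ζq = ζq ^ g) :
    res τ (1 - hζq.toInteger) = (1 - hζq.toInteger) * ∑ i ∈ Finset.range g, hζq.toInteger ^ i := by
  rw [map_sub, map_one, res_zeta hζq hτg, mul_neg_geom_sum]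

theorem one_sub_zeta_dvd_geom_sum_sub {ζq : M} (hζq : IsPrimitiveRoot ζq q) (g : ℕ) :
    (1 - hζq.toInteger) ∣ (∑ i ∈ Finset.range g, hζq.toInteger ^ i) - (g : 𝓞 M) := by
  have : (∑ i ∈ Finset.range g, hζq.toInteger ^ i) - (g : 𝓞 M) =
      ∑ i ∈ Finset.range g, (hζq.toInteger ^ i - 1) := by
    rw [Finset.sum_sub_distrib]; simp
  rw [this]
  refine Finset.dvd_sum fun i _ => ?_
  have h1 : (hζq.toInteger - 1) ∣ hζq.toInteger ^ i - 1 ^ i := sub_dvd_pow_sub_pow _ _ i
  rw [one_pow] at h1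
  have h3 : (1 - hζq.toInteger) ∣ hζq.toInteger - 1 := ⟨-1, by ring⟩
  exact h3.trans h1

include hK hM in
/-- The local congruence at a prime `P` of `𝓞 M` above `q`:
`(ζ_p - 1) * g ^ v_P(β) ≡ 1 mod P ∩ 𝓞 K`. -/
theorem local_congr (hpq : p ≠ q) {ζ : K} (hζ : IsPrimitiveRoot ζ p) {ζq : M}
    (hζq : IsPrimitiveRoot ζq q) {τ : Gal(M/K)} {g : ℕ} (hτg : τ ζq = ζq ^ g) {β : 𝓞 M}
    (hβ0 : β ≠ 0) (hβ : delta hζ hζq * res τ β = β) (P : Ideal (𝓞 M)) [hPp : P.IsPrime]
    (hP : P ≠ ⊥) (hqP : (q : 𝓞 M) ∈ P) :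
    (hζ.toInteger - 1) * (g : 𝓞 K) ^ (multiplicity P (Ideal.span {β})) - 1 ∈ P.under (𝓞 K) := by
  set s := multiplicity P (Ideal.span {β}) with hs
  set ϖ : 𝓞 M := 1 - hζq.toInteger with hϖdef
  have hζq' : IsPrimitiveRoot hζq.toInteger q := hζq.toInteger_isPrimitiveRoot
  have hϖ : multiplicity P (Ideal.span {ϖ}) = 1 :=
    multiplicity_one_sub_zeta (p := p) (K := K) hpq hζq' P hP hqP
  have hϖ0 : ϖ ≠ 0 := sub_ne_zero.mpr (hζq'.ne_one hq.out.one_lt).symm
  have hϖP : ϖ ∈ P := by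
    have h1 : P ∣ Ideal.span {ϖ} := by
      have := pow_multiplicity_dvd P (Ideal.span {ϖ})
      rwa [hϖ, pow_one] at this
    rw [Ideal.dvd_iff_le] at h1
    exact h1 (Ideal.mem_span_singleton_self ϖ)
  have hdvdP : ∀ {x : 𝓞 M}, ϖ ∣ x → x ∈ P := fun hx => Ideal.mem_of_dvd P hx hϖP
  obtain ⟨a, b, ha, hb, hab⟩ := exists_mul_eq_pow_mul P hP hϖ hϖ0 hβ0
  rw [← hs] at hab
  set w₀ : 𝓞 M := ∑ i ∈ Finset.range g, hζq.toInteger ^ i with hw₀
  have hres : res τ β * res τ b = (ϖ * w₀) ^ s * res τ a := by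
    rw [← map_mul, hab, map_mul, map_pow, res_one_sub_zeta hζq hτg]
  set δ := delta hζ hζq with hδ
  have hkey : ϖ ^ s * (a * res τ b) = ϖ ^ s * (δ * w₀ ^ s * res τ a * b) := by
    calc ϖ ^ s * (a * res τ b) = (β * b) * res τ b := by rw [hab]; ring
      _ = (δ * res τ β) * b * res τ b := by rw [hβ]
      _ = δ * b * (res τ β * res τ b) := by ring
      _ = δ * b * ((ϖ * w₀) ^ s * res τ a) := by rw [hres]
      _ = ϖ ^ s * (δ * w₀ ^ s * res τ a * b) := by rw [mul_pow]; ring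
  have hkey' : a * res τ b = δ * w₀ ^ s * res τ a * b :=
    mul_left_cancel₀ (pow_ne_zero s hϖ0) hkey
  -- reduce modulo `P`
  have e1 : Ideal.Quotient.mk P (res τ b) = Ideal.Quotient.mk P b :=
    Ideal.Quotient.eq.mpr (hdvdP (one_sub_zeta_dvd_res_sub (p := p) hpq hζ hζq hτg b))
  have e2 : Ideal.Quotient.mk P (res τ a) = Ideal.Quotient.mk P a :=
    Ideal.Quotient.eq.mpr (hdvdP (one_sub_zeta_dvd_res_sub (p := p) hpq hζ hζq hτg a))
  have e3 : Ideal.Quotient.mk P w₀ = Ideal.Quotient.mk P (g : 𝓞 M) :=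
    Ideal.Quotient.eq.mpr (hdvdP (one_sub_zeta_dvd_geom_sum_sub hζq g))
  have e4 : Ideal.Quotient.mk P δ =
      Ideal.Quotient.mk P (algebraMap (𝓞 K) (𝓞 M) (hζ.toInteger - 1)) := by
    refine Ideal.Quotient.eq.mpr ?_
    have : δ - algebraMap (𝓞 K) (𝓞 M) (hζ.toInteger - 1) = ϖ := by
      rw [hδ, delta, hϖdef, map_sub, map_one]; ring_nf
    rw [this]; exact hϖP
  have hq := congrArg (Ideal.Quotient.mk P) hkey'
  simp only [map_mul, map_pow, e1, e2, e3, e4] at hq
  have ha' : Ideal.Quotient.mk P a ≠ 0 := fun h => ha (Ideal.Quotient.eq_zero_iff_mem.mp h)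
  have hb' : Ideal.Quotient.mk P b ≠ 0 := fun h => hb (Ideal.Quotient.eq_zero_iff_mem.mp h)
  have hfin : Ideal.Quotient.mk P (algebraMap (𝓞 K) (𝓞 M) (hζ.toInteger - 1)) *
      Ideal.Quotient.mk P (g : 𝓞 M) ^ s = 1 := by
    have h1 : (Ideal.Quotient.mk P (algebraMap (𝓞 K) (𝓞 M) (hζ.toInteger - 1)) *
      Ideal.Quotient.mk P (g : 𝓞 M) ^ s) * (Ideal.Quotient.mk P a * Ideal.Quotient.mk P b) =
        1 * (Ideal.Quotient.mk P a * Ideal.Quotient.mk P b) := by
      rw [one_mul, ← mul_assoc]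
      exact hq.symm
    exact mul_right_cancel₀ (mul_ne_zero ha' hb') h1
  rw [Ideal.under_def, Ideal.mem_comap, map_sub, map_mul, map_pow, map_natCast, map_one,
    ← Ideal.Quotient.eq_zero_iff_mem, map_sub, map_mul, map_pow, map_one, hfin, sub_self]

include hK hM in
/-- Thaine's relation, stated with an auxiliary `q`-th cyclotomic extension `M` of `K`. -/
theorem thaine_relation_aux (hpq : p ≠ q) (hq2 : q ≠ 2) (hqp : q % p = 1) {ζ : K}
    (hζ : IsPrimitiveRoot ζ p) :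
    ∃ (γ : 𝓞 K) (g : ℕ), γ ≠ 0 ∧ ¬ q ∣ g ∧ ∀ v : Ideal (𝓞 K), v.IsPrime → v ≠ ⊥ →
      ((q : 𝓞 K) ∉ v → (q - 1) ∣ multiplicity v (Ideal.span {γ})) ∧
      ((q : 𝓞 K) ∈ v →
        (hζ.toInteger - 1) * (g : 𝓞 K) ^ (multiplicity v (Ideal.span {γ})) - 1 ∈ v) := by
  have hζq := IsCyclotomicExtension.zeta_spec q K M
  obtain ⟨τ, g, hτ, hτg, hg⟩ := exists_generator (p := p) (K := K) hpq hζq
  obtain ⟨β, D, hβ0, hβ, hrel⟩ := exists_beta hpq hq2 hqp hζ hζq τ hτ
  refine ⟨RingOfIntegers.norm K β, g, ?_, hg, ?_⟩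
  · intro h0
    rw [h0, map_zero, mul_zero] at hrel
    exact hβ0 (pow_eq_zero_iff (Nat.sub_pos_of_lt hq.out.one_lt).ne' |>.mp hrel)
  · intro v hv hv0
    haveI := hv
    haveI : v.IsMaximal := hv.isMaximal hv0
    obtain ⟨P, hPmax, hPv⟩ := Ideal.exists_maximal_ideal_liesOver_of_isIntegral (S := 𝓞 M) v
    haveI := hPmax.isPrime
    have hvP : v = P.under (𝓞 K) := hPv.over
    have hP0 : P ≠ ⊥ := by
      rintro rfl
      apply hv0
      rw [hvP, eq_bot_iff]
      intro x hx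
      rw [Ideal.under_def, Ideal.mem_comap, Ideal.mem_bot] at hx
      rw [Ideal.mem_bot]
      exact (FaithfulSMul.algebraMap_injective (𝓞 K) (𝓞 M)) (by rw [hx, map_zero])
    have hmem : (q : 𝓞 M) ∈ P ↔ (q : 𝓞 K) ∈ v := by
      rw [hvP, Ideal.under_def, Ideal.mem_comap, map_natCast]
    obtain ⟨h1, h2⟩ := multiplicity_gamma (p := p) hpq hβ0 hrel P hP0
    refine ⟨fun hqv => ?_, fun hqv => ?_⟩
    · rw [hvP, h2 (fun h => hqv (hmem.mp h))]
      exact Dvd.intro _ rfl
    · have h3 := local_congr (p := p) hpq hζ hζq hτg hβ0 hβ P hP0 (hmem.mpr hqv)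
      rw [← h1 (hmem.mpr hqv), ← hvP] at h3
      exact h3

omit hq in
/-- **Thaine's relation.** Let `K = ℚ(ζ_p)` and `q ≡ 1 mod p` a prime. There are `γ ∈ 𝓞 K`, `γ ≠ 0`
and `g ∈ ℕ` prime to `q` such that the valuation of `γ` at every prime not above `q` is divisible
by `q - 1`, and at every prime `v` above `q` it is an `s` with `(ζ_p - 1) g ^ s ≡ 1 mod v`. -/
theorem thaine_relation (hqprime : q.Prime) (hpq : p ≠ q) (hq2 : q ≠ 2) (hqp : q % p = 1) {ζ : K}
    (hζ : IsPrimitiveRoot ζ p) :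
    ∃ (γ : 𝓞 K) (g : ℕ), γ ≠ 0 ∧ ¬ q ∣ g ∧ ∀ v : Ideal (𝓞 K), v.IsPrime → v ≠ ⊥ →
      ((q : 𝓞 K) ∉ v → (q - 1) ∣ multiplicity v (Ideal.span {γ})) ∧
      ((q : 𝓞 K) ∈ v →
        (hζ.toInteger - 1) * (g : 𝓞 K) ^ (multiplicity v (Ideal.span {γ})) - 1 ∈ v) := by
  haveI : Fact q.Prime := ⟨hqprime⟩
  exact thaine_relation_aux (M := CyclotomicField q K) hpq hq2 hqp hζ

end Fermat.Agent.S14.H10
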